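import Mathlib

/-!
# S16, piece U2 ("Hecke pigeonhole"), abstract power-series form

Let `Λ ⊆ ℤ⟦X⟧` be a finitely generated `ℤ`-submodule, `F D : ℤ⟦X⟧` with `D = q + ...` and
`F ≡ s • D mod l ^ a` coefficientwise (`l` prime, `l ∤ s`).  If for all large primes `r` the
power series `T_r^{(k+w)} F - s • T_r^{(k)} D` lies in `Λ` (coefficient-level Hecke operators
of weights `k + w` and `k`), then `u ^ w ≡ 1 mod l ^ a` for every `u` prime to `l`.
For `w = 2` this gives `l ^ a ∣ 24`.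

Application (S16, route of helper556): `G ∈ M₂(Γ₀(p))` with integral higher coefficients and
constant term of denominator `t`, `l ^ a ∣ t`, `F = q-expansion of Δ • (t • G)`, `D = Δ`,
`Λ = q-expansions of (intLattice p 14) + (intLattice p 12)`.  Conclusion: `t ∣ 24`.
-/

set_option autoImplicit false

namespace Fermat.Agent.S16.H415

open PowerSeries

/-- The coefficient-level Hecke operator `T_r` of weight `k` on integral power series:
`a_n(T_r f) = a_{nr}(f) + r^{k-1} a_{n/r}(f)`. -/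
noncomputable def hT (k r : ℕ) (f : PowerSeries ℤ) : PowerSeries ℤ :=
  PowerSeries.mk fun n =>
    coeff (n * r) f + if r ∣ n then (r : ℤ) ^ (k - 1) * coeff (n / r) f else 0

@[simp] lemma coeff_hT (k r : ℕ) (f : PowerSeries ℤ) (n : ℕ) :
    coeff n (hT k r f) =
      coeff (n * r) f + if r ∣ n then (r : ℤ) ^ (k - 1) * coeff (n / r) f else 0 := by
  simp [hT, coeff_mk]

/-- The key congruence: if `F ≡ s D` coefficientwise modulo `m`, then
`T_r^{(k+w)} F - s T_r^{(k)} D ≡ s r^{k-1} (r^w - 1) D(q^r)` modulo `m`. -/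
lemma coeff_hT_sub_congr {m : ℤ} {F D : PowerSeries ℤ} {s : ℤ}
    (hcong : ∀ n, m ∣ coeff n F - s * coeff n D) (k w r : ℕ) (hk : 1 ≤ k) (n : ℕ) :
    m ∣ coeff n (hT (k + w) r F - s • hT k r D) -
      (if r ∣ n then s * (r : ℤ) ^ (k - 1) * ((r : ℤ) ^ w - 1) * coeff (n / r) D else 0) := by
  have hkw : k + w - 1 = (k - 1) + w := by omega
  simp only [map_sub, coeff_hT, map_smul, smul_eq_mul, hkw]
  by_cases hr : r ∣ n
  · simp only [hr, if_true]
    have h1 := hcong (n * r)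
    have h2 := hcong (n / r)
    have : coeff (n * r) F + (r : ℤ) ^ (k - 1 + w) * coeff (n / r) F -
        s * (coeff (n * r) D + (r : ℤ) ^ (k - 1) * coeff (n / r) D) -
        s * (r : ℤ) ^ (k - 1) * ((r : ℤ) ^ w - 1) * coeff (n / r) D =
        (coeff (n * r) F - s * coeff (n * r) D) +
          (r : ℤ) ^ (k - 1 + w) * (coeff (n / r) F - s * coeff (n / r) D) := by
      rw [pow_add]; ring
    rw [this]
    exact dvd_add h1 (Dvd.dvd.mul_left h2 _)
  · simp only [hr, if_false, add_zero, sub_zero]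
    exact hcong (n * r)

/-- **U2, general form.** -/
theorem pow_modEq_one_of_hecke_mem {l a : ℕ} (hl : l.Prime)
    (Λ : Submodule ℤ (PowerSeries ℤ)) (hΛ : Λ.FG) (N₀ : ℕ)
    (F D : PowerSeries ℤ) (s : ℤ) (hs : ¬ (l : ℤ) ∣ s) (hD : coeff 1 D = 1)
    (hcong : ∀ n, ((l : ℤ) ^ a) ∣ coeff n F - s * coeff n D)
    (k w : ℕ) (hk : 1 ≤ k)
    (hmem : ∀ r : ℕ, r.Prime → N₀ < r → hT (k + w) r F - s • hT k r D ∈ Λ)
    (u : ℕ) (hu : u.Coprime l) : ((l : ℤ) ^ a) ∣ (u : ℤ) ^ w - 1 := by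
  classical
  rcases Nat.eq_zero_or_pos a with rfl | ha
  · simp
  obtain ⟨S, hS⟩ := hΛ
  have hq0 : l ^ a ≠ 0 := pow_ne_zero a hl.ne_zero
  have hucop : u.Coprime (l ^ a) := Nat.Coprime.pow_right a hu
  -- the infinite set of good primes
  set R : Set ℕ := {r | r.Prime ∧ r ≡ u [MOD l ^ a] ∧ N₀ < r} with hR
  have hRinf : R.Infinite := by
    rw [Set.infinite_iff_exists_gt]
    intro n
    obtain ⟨r, hr, hrp, hru⟩ := Nat.forall_exists_prime_gt_and_modEq (max n N₀) hq0 hucop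
    exact ⟨r, ⟨hrp, hru, lt_of_le_of_lt (le_max_right _ _) hr⟩,
      lt_of_le_of_lt (le_max_left _ _) hr⟩
  -- coefficients of a representation
  have hrep : ∀ r : ℕ, ∃ c : S → ℤ, r ∈ R →
      ∑ g : S, c g • (g : PowerSeries ℤ) = hT (k + w) r F - s • hT k r D := by
    intro r
    by_cases hr : r ∈ R
    · have := hmem r hr.1 hr.2.2
      rw [← hS] at this
      obtain ⟨c, hc⟩ := Submodule.mem_span_finset'.mp this
      exact ⟨c, fun _ => hc⟩
    · exact ⟨0, fun h => absurd h hr⟩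
  choose c hc using hrep
  haveI : NeZero (l ^ a) := ⟨hq0⟩
  let φ : ℕ → (S → ZMod (l ^ a)) := fun r g => ((c r g : ℤ) : ZMod (l ^ a))
  obtain ⟨r, hr, r', hr', hne, hφ⟩ :=
    hRinf.exists_ne_map_eq_of_mapsTo (f := φ) (t := Set.univ) (fun _ _ => Set.mem_univ _)
      Set.finite_univ
  -- all coefficients of the difference are divisible by `l ^ a`
  have hdiff : ∀ n, ((l : ℤ) ^ a) ∣
      coeff n (hT (k + w) r F - s • hT k r D) - coeff n (hT (k + w) r' F - s • hT k r' D) := by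
    intro n
    rw [← hc r hr, ← hc r' hr', ← map_sub, ← Finset.sum_sub_distrib, map_sum]
    apply Finset.dvd_sum
    intro g _
    rw [← sub_smul, map_smul, smul_eq_mul]
    apply Dvd.dvd.mul_right
    have := congrFun hφ g
    simp only [φ] at this
    have h2 : (((c r g - c r' g : ℤ)) : ZMod (l ^ a)) = 0 := by
      push_cast; rw [this, sub_self]
    have := (ZMod.intCast_zmod_eq_zero_iff_dvd _ _).mp h2
    exact_mod_cast this
  -- evaluate at `n = r`
  have h1 := coeff_hT_sub_congr hcong k w r hk r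
  have h2 := coeff_hT_sub_congr hcong k w r' hk r
  have hrr : r ∣ r := dvd_rfl
  have hr'r : ¬ r' ∣ r := by
    intro h
    exact hne ((Nat.prime_dvd_prime_iff_eq hr'.1 hr.1).mp h).symm
  simp only [hrr, if_true, Nat.div_self hr.1.pos, hD, mul_one] at h1
  simp only [hr'r, if_false, sub_zero] at h2
  have h3 := hdiff r
  have h4 : ((l : ℤ) ^ a) ∣ s * (r : ℤ) ^ (k - 1) * ((r : ℤ) ^ w - 1) := by
    have : s * (r : ℤ) ^ (k - 1) * ((r : ℤ) ^ w - 1) =
        (coeff r (hT (k + w) r F - s • hT k r D) -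
            coeff r (hT (k + w) r' F - s • hT k r' D)) -
          (coeff r (hT (k + w) r F - s • hT k r D) -
            s * (r : ℤ) ^ (k - 1) * ((r : ℤ) ^ w - 1)) +
          coeff r (hT (k + w) r' F - s • hT k r' D) := by ring
    rw [this]
    exact dvd_add (dvd_sub h3 h1) h2
  -- cancel the units `s` and `r ^ (k - 1)`
  have hlprime : Prime (l : ℤ) := Nat.prime_iff_prime_int.mp hl
  have hrl : ¬ (l : ℤ) ∣ (r : ℤ) := by
    intro h
    have h' : l ∣ r := by exact_mod_cast h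
    have hlr : l = r := (Nat.prime_dvd_prime_iff_eq hl hr.1).mp h'
    -- then `l ≡ u mod l ^ a`, so `l ∣ u`
    have hmod : r ≡ u [MOD l] := hr.2.1.of_dvd (dvd_pow_self l ha.ne')
    rw [← hlr] at hmod
    have hlu : l ∣ u := (Nat.modEq_zero_iff_dvd.mp ((Nat.modEq_zero_iff_dvd.mpr dvd_rfl).symm.trans hmod).symm)
    have := Nat.Coprime.eq_one_of_dvd hu.symm hlu
    exact hl.one_lt.ne' this
  have hcop : IsCoprime ((l : ℤ) ^ a) (s * (r : ℤ) ^ (k - 1)) := by
    apply IsCoprime.pow_left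
    apply IsCoprime.mul_right
    · exact (Prime.coprime_iff_not_dvd hlprime).mpr hs
    · exact IsCoprime.pow_right ((Prime.coprime_iff_not_dvd hlprime).mpr hrl)
  have h5 : ((l : ℤ) ^ a) ∣ (r : ℤ) ^ w - 1 := hcop.dvd_of_dvd_mul_left h4
  -- transfer from `r` to `u`
  have h6 : ((l ^ a : ℕ) : ℤ) ∣ (r : ℤ) ^ w - (u : ℤ) ^ w := by
    have hmod : (r : ℤ) ≡ (u : ℤ) [ZMOD ((l ^ a : ℕ) : ℤ)] :=
      (Int.natCast_modEq_iff).mpr hr.2.1
    exact (hmod.pow w).symm.dvd
  have h7 : (u : ℤ) ^ w - 1 = ((r : ℤ) ^ w - 1) - ((r : ℤ) ^ w - (u : ℤ) ^ w) := by ring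
  rw [h7]
  exact dvd_sub h5 (by exact_mod_cast h6)

/-- **U2.** With weights differing by `2`, the modulus `l ^ a` divides `24`. -/
theorem dvd_24_of_hecke_mem {l a : ℕ} (hl : l.Prime)
    (Λ : Submodule ℤ (PowerSeries ℤ)) (hΛ : Λ.FG) (N₀ : ℕ)
    (F D : PowerSeries ℤ) (s : ℤ) (hs : ¬ (l : ℤ) ∣ s) (hD : coeff 1 D = 1)
    (hcong : ∀ n, ((l : ℤ) ^ a) ∣ coeff n F - s * coeff n D)
    (k : ℕ) (hk : 1 ≤ k)
    (hmem : ∀ r : ℕ, r.Prime → N₀ < r → hT (k + 2) r F - s • hT k r D ∈ Λ) :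
    l ^ a ∣ 24 := by
  have key := pow_modEq_one_of_hecke_mem hl Λ hΛ N₀ F D s hs hD hcong k 2 hk hmem
  by_cases h2 : l = 2
  · subst h2
    have h := key 3 (by decide)
    have h' : ((2 : ℤ) ^ a) ∣ 8 := by norm_num at h; exact_mod_cast h
    have h'' : (2 : ℕ) ^ a ∣ 8 := by exact_mod_cast h'
    exact h''.trans (by norm_num)
  · have hcop : Nat.Coprime 2 l := by
      rw [Nat.coprime_comm, Nat.Prime.coprime_iff_not_dvd hl]
      intro h
      exact h2 ((Nat.prime_dvd_prime_iff_eq hl Nat.prime_two).mp h)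
    have h := key 2 hcop
    have h' : ((l : ℤ) ^ a) ∣ 3 := by norm_num at h; exact_mod_cast h
    have h'' : l ^ a ∣ 3 := by exact_mod_cast h'
    exact h''.trans (by norm_num)

end Fermat.Agent.S16.H415
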